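/-
S26 / block F, node F1, leaf "coordinates" (Mathlib only, ANY field, in fact any nontrivial
commutative ring for most of it): a nonzero power series in `n + 1` variables becomes regular in
`X₀` after the automorphism `X₀ ↦ X₀`, `X_j ↦ X_j + X₀ ^ w_j` for suitable weights `w`.
-/
import Mathlib

set_option autoImplicit false

namespace Fermat.Agent.S26.F

open MvPowerSeries

/-- Weights isolating one exponent vector of a nonempty set of exponent vectors. -/
theorem coord_exists_weight (m : ℕ) (S : Set (Fin (m + 1) → ℕ)) (hS : S.Nonempty) :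
    ∃ w : Fin (m + 1) → ℕ, w 0 = 1 ∧ (∀ i, 0 < w i) ∧ ∃ d₀ ∈ S, ∀ d ∈ S,
      ∑ i, w i * d i ≤ ∑ i, w i * d₀ i → d = d₀ := by
  classical
  induction m with
  | zero =>
    have hex : ∃ k, ∃ d ∈ S, d 0 = k := by
      obtain ⟨d, hd⟩ := hS
      exact ⟨_, d, hd, rfl⟩
    obtain ⟨d₁, hd₁, hk⟩ := Nat.find_spec hex
    have hmin : ∀ d ∈ S, Nat.find hex ≤ d 0 := fun d hd => Nat.find_min' hex ⟨d, hd, rfl⟩
    refine ⟨fun _ => 1, rfl, fun _ => one_pos, d₁, hd₁, fun d hd hle => ?_⟩
    have h1 := hmin d hd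
    simp only [Fin.sum_univ_succ, Finset.univ_eq_empty, Finset.sum_empty, one_mul,
      add_zero] at hle
    funext i
    have hi : i = 0 := Fin.eq_zero (i : Fin 1)
    subst hi
    omega
  | succ m ih =>
    have hex : ∃ k, ∃ d ∈ S, d (Fin.last (m + 1)) = k := by
      obtain ⟨d, hd⟩ := hS
      exact ⟨_, d, hd, rfl⟩
    obtain ⟨d₁, hd₁, hk⟩ := Nat.find_spec hex
    have hmin : ∀ d ∈ S, Nat.find hex ≤ d (Fin.last (m + 1)) :=
      fun d hd => Nat.find_min' hex ⟨d, hd, rfl⟩
    generalize Nat.find hex = k at hk hmin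
    let S' : Set (Fin (m + 1) → ℕ) := {x | (Fin.snoc x k : Fin (m + 2) → ℕ) ∈ S}
    have hS' : S'.Nonempty := by
      refine ⟨Fin.init d₁, ?_⟩
      show (Fin.snoc (Fin.init d₁) k : Fin (m + 2) → ℕ) ∈ S
      rw [← hk, Fin.snoc_init_self]
      exact hd₁
    obtain ⟨w', hw0, hwpos, x₀, hx₀, huniq⟩ := ih S' hS'
    refine ⟨Fin.snoc w' (1 + ∑ i, w' i * x₀ i), ?_, ?_, Fin.snoc x₀ k, hx₀, ?_⟩
    · have h0 : (0 : Fin (m + 2)) = Fin.castSucc 0 := rfl
      rw [h0, Fin.snoc_castSucc]
      exact hw0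
    · intro i
      refine Fin.lastCases ?_ (fun j => ?_) i
      · simp
      · simpa using hwpos j
    · intro d hd hle
      have e1 : ∀ u v : Fin (m + 2) → ℕ, ∑ i, u i * v i =
          ∑ i : Fin (m + 1), u i.castSucc * v i.castSucc +
            u (Fin.last (m + 1)) * v (Fin.last (m + 1)) := fun u v => Fin.sum_univ_castSucc _
      rw [e1, e1] at hle
      simp only [Fin.snoc_castSucc, Fin.snoc_last] at hle
      have h1 := hmin d hd
      rcases h1.eq_or_lt with h2 | h2
      · have hd' : d = Fin.snoc (Fin.init d) k := by rw [h2, Fin.snoc_init_self]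
        have h3 : Fin.init d = x₀ := by
          refine huniq (Fin.init d) ?_ ?_
          · show (Fin.snoc (Fin.init d) k : Fin (m + 2) → ℕ) ∈ S
            rw [← hd']
            exact hd
          · rw [← h2] at hle
            simpa [Fin.init] using hle
        rw [hd', h3]
      · exfalso
        have h3 : (1 + ∑ i, w' i * x₀ i) * (k + 1) ≤
            (1 + ∑ i, w' i * x₀ i) * d (Fin.last (m + 1)) := Nat.mul_le_mul_left _ h2
        generalize (∑ i, w' i * x₀ i) = W at *
        generalize (∑ i : Fin (m + 1), w' i * d i.castSucc) = V at *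
        generalize d (Fin.last (m + 1)) = t at *
        nlinarith

variable {R : Type*} [CommRing R] {n : ℕ}

/-- The family `X₀, X_j + c X₀ ^ w_j`. -/
noncomputable def coordShear (c : R) (w : Fin (n + 1) → ℕ) :
    Fin (n + 1) → MvPowerSeries (Fin (n + 1)) R :=
  Fin.cases (X 0) (fun j => X j.succ + C c * X 0 ^ w j.succ)

theorem coordShear_zero (c : R) (w : Fin (n + 1) → ℕ) : coordShear c w 0 = X 0 := rfl

theorem coordShear_succ (c : R) (w : Fin (n + 1) → ℕ) (j : Fin n) :
    coordShear c w j.succ = X j.succ + C c * X 0 ^ w j.succ := rfl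

theorem coord_hasSubst (c : R) (w : Fin (n + 1) → ℕ) (hw : ∀ i, 0 < w i) :
    HasSubst (coordShear c w) := by
  refine hasSubst_of_constantCoeff_zero fun s => ?_
  refine Fin.cases ?_ (fun j => ?_) s
  · rw [coordShear_zero, constantCoeff_X]
  · rw [coordShear_succ, map_add, map_mul, map_pow, constantCoeff_X, constantCoeff_X,
      zero_pow (hw _).ne', mul_zero, add_zero]

theorem coord_subst_shear (c c' : R) (w : Fin (n + 1) → ℕ) (hw : ∀ i, 0 < w i)
    (s : Fin (n + 1)) :
    subst (coordShear c' w) (coordShear c w s) = coordShear (c + c') w s := by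
  have h := coord_hasSubst c' w hw
  refine Fin.cases ?_ (fun j => ?_) s
  · rw [coordShear_zero, subst_X h, coordShear_zero, coordShear_zero]
  · rw [coordShear_succ, subst_add h, subst_mul h, subst_pow h, subst_X h, subst_X h, subst_C,
      coordShear_succ, coordShear_zero, coordShear_succ, map_add]
    ring

theorem coord_subst_subst (c c' : R) (w : Fin (n + 1) → ℕ) (hw : ∀ i, 0 < w i)
    (f : MvPowerSeries (Fin (n + 1)) R) :
    subst (coordShear c' w) (subst (coordShear c w) f) = subst (coordShear (c + c') w) f := by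
  rw [subst_comp_subst_apply (coord_hasSubst c w hw) (coord_hasSubst c' w hw)]
  congr 1
  funext s
  exact coord_subst_shear c c' w hw s

theorem coordShear_zero_eq (w : Fin (n + 1) → ℕ) :
    coordShear (0 : R) w = (X : Fin (n + 1) → MvPowerSeries (Fin (n + 1)) R) := by
  funext s
  refine Fin.cases ?_ (fun j => ?_) s
  · rfl
  · rw [coordShear_succ, map_zero, zero_mul, add_zero]

/-- The automorphism `X₀ ↦ X₀`, `X_j ↦ X_j + X₀ ^ w_j`. -/
noncomputable def coordEquiv (w : Fin (n + 1) → ℕ) (hw : ∀ i, 0 < w i) :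
    MvPowerSeries (Fin (n + 1)) R ≃+* MvPowerSeries (Fin (n + 1)) R :=
  RingEquiv.ofRingHom (substAlgHom (R := R) (coord_hasSubst (1 : R) w hw)).toRingHom
    (substAlgHom (R := R) (coord_hasSubst (-1 : R) w hw)).toRingHom
    (by
      ext1 f
      show substAlgHom (R := R) (coord_hasSubst (1 : R) w hw)
        (substAlgHom (R := R) (coord_hasSubst (-1 : R) w hw) f) = f
      rw [substAlgHom_apply, substAlgHom_apply, coord_subst_subst _ _ w hw, neg_add_cancel,
        coordShear_zero_eq, subst_self, id])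
    (by
      ext1 f
      show substAlgHom (R := R) (coord_hasSubst (-1 : R) w hw)
        (substAlgHom (R := R) (coord_hasSubst (1 : R) w hw) f) = f
      rw [substAlgHom_apply, substAlgHom_apply, coord_subst_subst _ _ w hw, add_neg_cancel,
        coordShear_zero_eq, subst_self, id])

theorem coordEquiv_apply (w : Fin (n + 1) → ℕ) (hw : ∀ i, 0 < w i)
    (f : MvPowerSeries (Fin (n + 1)) R) :
    coordEquiv w hw f = subst (coordShear (1 : R) w) f :=
  substAlgHom_apply (coord_hasSubst (1 : R) w hw) f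

/-- Restriction to the `X₀`-axis. -/
noncomputable def coordAxis : MvPowerSeries (Fin (n + 1)) R →+* PowerSeries R :=
  (PowerSeries.map (constantCoeff (σ := Fin n) (R := R))).comp
    (finSuccEquiv R n).toRingEquiv.toRingHom

theorem coeff_coordAxis (N : ℕ) (g : MvPowerSeries (Fin (n + 1)) R) :
    PowerSeries.coeff N (coordAxis g) = coeff (Finsupp.cons N 0) g := by
  show PowerSeries.coeff N (PowerSeries.map constantCoeff (finSuccEquiv R n g)) = _
  rw [PowerSeries.coeff_map, ← coeff_zero_eq_constantCoeff_apply, coeff_coeff_finSuccEquiv]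

theorem coordAxis_shear (w : Fin (n + 1) → ℕ) (hw0 : w 0 = 1) (s : Fin (n + 1)) :
    coordAxis (coordShear (1 : R) w s) = PowerSeries.X ^ w s := by
  have h0 : coordAxis (X 0 : MvPowerSeries (Fin (n + 1)) R) = PowerSeries.X := by
    show PowerSeries.map constantCoeff (finSuccEquiv R n (X 0)) = _
    rw [finSuccEquiv_X_zero, PowerSeries.map_X]
  refine Fin.cases ?_ (fun j => ?_) s
  · rw [coordShear_zero, hw0, pow_one, h0]
  · have h1 : coordAxis (X j.succ : MvPowerSeries (Fin (n + 1)) R) = 0 := by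
      show PowerSeries.map constantCoeff (finSuccEquiv R n (X j.succ)) = _
      rw [finSuccEquiv_X_succ, PowerSeries.map_C, constantCoeff_X, map_zero]
    rw [coordShear_succ, map_add, map_mul, map_pow, h0, h1, map_one, map_one, one_mul, zero_add]

theorem coordAxis_prod (w : Fin (n + 1) → ℕ) (hw0 : w 0 = 1) (d : Fin (n + 1) →₀ ℕ) :
    coordAxis (d.prod fun s e => coordShear (1 : R) w s ^ e) =
      PowerSeries.X ^ (∑ i, w i * d i) := by
  rw [map_finsuppProd, Finsupp.prod_fintype _ _ (fun i => by rw [pow_zero, map_one]),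
    ← Finset.prod_pow_eq_pow_sum]
  refine Finset.prod_congr rfl fun i _ => ?_
  rw [map_pow, coordAxis_shear w hw0, pow_mul]

/-- Some coefficient of `e f` along the `X₀`-axis does not vanish. -/
theorem coord_exists_coeff_ne_zero (f : MvPowerSeries (Fin (n + 1)) R) (hf : f ≠ 0) :
    ∃ (e : MvPowerSeries (Fin (n + 1)) R ≃+* MvPowerSeries (Fin (n + 1)) R) (N : ℕ),
      coeff (Finsupp.cons N 0) (e f) ≠ 0 := by
  classical
  let S : Set (Fin (n + 1) → ℕ) := {x | ∃ d : Fin (n + 1) →₀ ℕ, coeff d f ≠ 0 ∧ ⇑d = x}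
  have hS : S.Nonempty := by
    by_contra hne
    apply hf
    ext d
    by_contra hd
    exact hne ⟨⇑d, d, hd, rfl⟩
  obtain ⟨w, hw0, hw, x₀, ⟨d₀, hd₀, rfl⟩, huniq⟩ := coord_exists_weight n S hS
  refine ⟨coordEquiv w hw, ∑ i, w i * d₀ i, ?_⟩
  rw [coordEquiv_apply, coeff_subst (coord_hasSubst (1 : R) w hw), finsum_eq_single _ d₀]
  · rw [← coeff_coordAxis, coordAxis_prod w hw0, PowerSeries.coeff_X_pow, if_pos rfl, smul_eq_mul,
      mul_one]
    exact hd₀
  · intro d hd
    rw [← coeff_coordAxis, coordAxis_prod w hw0, PowerSeries.coeff_X_pow]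
    by_cases hc : coeff d f = 0
    · rw [hc, zero_smul]
    · rw [if_neg, smul_zero]
      intro heq
      exact hd (DFunLike.coe_injective (huniq ⇑d ⟨d, hc, rfl⟩ heq.ge))

/-- **General change of coordinates** (any field). -/
theorem coord_exists_ringEquiv_map_ne_zero (K : Type*) [Field K] (n : ℕ)
    (f : MvPowerSeries (Fin (n + 1)) K) (hf : f ≠ 0) :
    ∃ e : MvPowerSeries (Fin (n + 1)) K ≃+* MvPowerSeries (Fin (n + 1)) K,
      (MvPowerSeries.finSuccEquiv K n (e f)).map
        (IsLocalRing.residue (MvPowerSeries (Fin n) K)) ≠ 0 := by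
  obtain ⟨e, N, hN⟩ := coord_exists_coeff_ne_zero f hf
  refine ⟨e, fun h0 => hN ?_⟩
  have h1 := congrArg (PowerSeries.coeff N) h0
  rw [PowerSeries.coeff_map, map_zero, IsLocalRing.residue_eq_zero_iff,
    IsLocalRing.mem_maximalIdeal, mem_nonunits_iff, MvPowerSeries.isUnit_iff_constantCoeff,
    isUnit_iff_ne_zero, not_not, ← coeff_zero_eq_constantCoeff_apply,
    coeff_coeff_finSuccEquiv] at h1
  exact h1

end Fermat.Agent.S26.F
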